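import Fermat.Agent.Imai.Main
import Fermat.Agent.Root.SummaryOpenImageJConsequences

/-!
# The cyclotomic `ℤ_p`-extension of a number field

Every elliptic curve over `ℚ` has finitely many torsion points over `F (μ_{p^∞})`: where `j` is
integral at `p` this is local, and where it has a pole the finiteness over abelian extensions
applies.
-/

set_option autoImplicit false
set_option linter.unusedSectionVars false
set_option linter.style.haveILetI false

noncomputable section

open WeierstrassCurve FA.TateSen FA.Frob FA.EC FA.Local FA.RT.Tate FA.PotDR FA.LocIrr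
open scoped WeierstrassCurve.Affine Classical

namespace FA.Imai

local notation "Qb" => AlgebraicClosure ℚ
local notation "GQ" => AlgebraicClosure ℚ ≃ₐ[ℚ] AlgebraicClosure ℚ

/-- Automorphisms commute on a root of unity. -/
theorem commute_on_root (σ τ : GQ) {N : ℕ} (hN : N ≠ 0) {z : Qb} (hz : z ^ N = 1) :
    σ (τ z) = τ (σ z) := by
  have hk : orderOf z ≠ 0 :=
    (orderOf_pos_iff.2 (isOfFinOrder_iff_pow_eq_one.2 ⟨N, Nat.pos_of_ne_zero hN, hz⟩)).ne'
  haveI : NeZero (orderOf z) := ⟨hk⟩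
  have key : ∀ ρ : GQ, ∃ i : ℕ, z ^ i = ρ z := fun ρ =>
    let ⟨i, _, hi⟩ := (IsPrimitiveRoot.orderOf z).eq_pow_of_pow_eq_one
      (ξ := ρ z) (by rw [← map_pow, pow_orderOf_eq_one, map_one])
    ⟨i, hi⟩
  obtain ⟨a, ha⟩ := key σ
  obtain ⟨b, hb⟩ := key τ
  rw [← hb, ← ha, map_pow, map_pow, ← ha, ← hb, ← pow_mul, ← pow_mul, mul_comm]

/-- A commutator fixes the roots of unity. -/
theorem commutator_fixes_root (σ τ : GQ) {N : ℕ} (hN : N ≠ 0) {z : Qb} (hz : z ^ N = 1) :
    (σ * τ * σ⁻¹ * τ⁻¹) z = z := by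
  simp only [AlgEquiv.mul_apply]
  rw [commute_on_root σ τ hN (z := σ⁻¹ (τ⁻¹ z)) (by rw [← map_pow, ← map_pow, hz, map_one,
      map_one]), ← AlgEquiv.mul_apply, ← AlgEquiv.mul_apply, ← AlgEquiv.mul_apply]
  simp

variable (p : ℕ) [hp : Fact p.Prime] {W : WeierstrassCurve ℤ} [(ratCurve W).IsElliptic]

/-- **Finitely many torsion points over `F (μ_{p^∞})`**, for every curve, prime and number
field. -/
theorem finite_torsion_global (F : IntermediateField ℚ Qb) [FiniteDimensional ℚ F] :
    {P : Pts W | IsOfFinAddOrder P ∧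
      ∀ σ : GQ, σ ∈ F.fixingSubgroup → (∀ (n : ℕ) (z : Qb), z ^ p ^ n = 1 → σ z = z) →
        σ • P = P}.Finite := by
  rcases le_or_gt 0 (padicValRat p (ratCurve W).j) with hj | hj
  · exact (finite_fixed_torsion hj (U := F.fixingSubgroup.comap (localGaloisToGlobal p))
      ((IntermediateField.fixingSubgroup_isOpen F).preimage FA.GalCoh.continuous_loc)).subset
      fun P hP => ⟨hP.1, fun τ hτ hχ => hP.2 _ hτ fun n z hz => loc_apply_root_of_chi hχ hz⟩
  · refine (FA.Summary.finite_torsion_abelian_of_pole (ratCurve W) ⟨p, hp.out, hj⟩ F).subset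
      fun P hP => ⟨hP.1, fun σ hσ τ hτ => ?_⟩
    exact hP.2 _ (mul_mem (mul_mem (mul_mem hσ hτ) (inv_mem hσ)) (inv_mem hτ))
      fun n z hz => commutator_fixes_root σ τ (pow_ne_zero _ hp.out.ne_zero) hz

end FA.Imai
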