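import Fermat.Agent.LocalIrreducible.Classification
import Fermat.Agent.LocalIrreducible.Cyclotomic
import Fermat.Agent.Root.SummaryIsogenyBound

/-!
# A pole of `j`

An open subgroup has a vector fixed by all its elements with trivial cyclotomic character, so a
finite extension has infinitely many points of `p`-power order over its cyclotomic extension.
-/

set_option autoImplicit false
set_option linter.unusedSectionVars false
set_option linter.style.haveILetI false

noncomputable section

open Matrix WeierstrassCurve FA.TateSen FA.Frob FA.EC FA.Local FA.RT.Tate FA.CurveDR FA.LocIrr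
open scoped WeierstrassCurve.Affine Classical

namespace FA.Imai

variable {p : ℕ} [hp : Fact p.Prime] {W : WeierstrassCurve ℤ} [(ratCurve W).IsElliptic]

local notation "G" => PadicAlgCl p ≃ₐ[ℚ_[p]] PadicAlgCl p

/-- A fixed vector can be made primitive integral. -/
theorem exists_integral_fixed (B : TateBasis p W) {S : Set G} {v : Fin 2 → ℚ_[p]} (hv : v ≠ 0)
    (h : ∀ σ ∈ S, curveAtP B σ *ᵥ v = v) :
    ∃ (e : Fin 2 → ℤ_[p]) (i : Fin 2), e i = 1 ∧
      ∀ σ ∈ S, B.rep (localGaloisToGlobal p σ) *ᵥ e = e := by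
  obtain ⟨i, -, hi⟩ := Finset.exists_max_image Finset.univ (fun k => ‖v k‖) Finset.univ_nonempty
  have hi0 : v i ≠ 0 := fun h0 => hv (funext fun k => norm_le_zero_iff.1
    ((hi k (Finset.mem_univ k)).trans_eq (by rw [h0, norm_zero])))
  let e : Fin 2 → ℤ_[p] := fun k => ⟨v k / v i, by
    rw [norm_div, div_le_one (norm_pos_iff.2 hi0)]
    exact hi k (Finset.mem_univ k)⟩
  refine ⟨e, i, Subtype.ext (div_self hi0), fun σ hσ => funext fun k => Subtype.ext ?_⟩
  rw [show (((B.rep (localGaloisToGlobal p σ) *ᵥ e) k : ℤ_[p]) : ℚ_[p]) =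
      (curveAtP B σ *ᵥ fun j => ((e j : ℤ_[p]) : ℚ_[p])) k from
      RingHom.map_mulVec (PadicInt.Coe.ringHom (p := p)) _ e k,
    show (fun j => ((e j : ℤ_[p]) : ℚ_[p])) = (v i)⁻¹ • v from funext fun j => by
      rw [Pi.smul_apply, smul_eq_mul, ← div_eq_inv_mul],
    Matrix.mulVec_smul, h σ hσ, Pi.smul_apply, smul_eq_mul, ← div_eq_inv_mul]

/-- **A line fixed by the kernel of `χ` in an open subgroup.** -/
theorem exists_fixed_line (hj : padicValRat p (ratCurve W).j < 0) (B : TateBasis p W) :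
    ∃ U : Subgroup G, IsOpen (U : Set G) ∧ ∃ (e : Fin 2 → ℤ_[p]) (i : Fin 2), e i = 1 ∧
      ∀ τ ∈ U, chi p τ = 1 → ∀ n, localGaloisToGlobal p τ • B.φ n e = B.φ n e := by
  obtain ⟨C, T, hT, h10, h11⟩ := exists_triangular_pole hj B
  have hρ := isQpRep_curveAtP B
  have hTe : ∀ τ, T τ = (↑C⁻¹ : Matrix (Fin 2) (Fin 2) ℚ_[p]) * curveAtP B τ *
      (C : Matrix (Fin 2) (Fin 2) ℚ_[p]) := fun τ => by
    rw [mul_assoc, hT, Units.inv_mul_cancel_left]
  have hTc : Continuous T := by
    rw [funext hTe]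
    exact (continuous_const.mul hρ.cont).mul continuous_const
  have h1 : T 1 1 1 = 1 := by
    rw [hTe, hρ.map_one, mul_one, Units.inv_mul, Matrix.one_apply_eq]
  obtain ⟨U, -, hU, hN⟩ := FA.Sen.exists_open_normal_subset
    (W := (fun τ => T τ 1 1) ⁻¹' {x | x ≠ -1})
    ((isOpen_ne.preimage (hTc.matrix_elem 1 1)).mem_nhds (by
      show T 1 1 1 ≠ -1
      rw [h1]
      norm_num))
  have h00 : ∀ τ ∈ U, chi p τ = 1 → T τ 0 0 = 1 := fun τ hτ hχ => by
    have hd : (T τ).det = (curveAtP B τ).det := by rw [hTe]; exact Matrix.det_units_conj' C _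
    rw [Matrix.det_fin_two, h10, mul_zero, sub_zero,
      (sq_eq_one_iff.1 (h11 τ)).resolve_right (hN τ hτ), mul_one, det_curveAtP, hχ, Units.val_one,
      PadicInt.coe_one] at hd
    exact hd
  set v := (C : Matrix (Fin 2) (Fin 2) ℚ_[p]) *ᵥ Pi.single 0 1
  have hv : v ≠ 0 := fun h0 => by
    have h2 := congrArg (fun w => (↑C⁻¹ : Matrix (Fin 2) (Fin 2) ℚ_[p]) *ᵥ w) h0
    simp only [v, Matrix.mulVec_mulVec, Units.inv_mul, Matrix.one_mulVec,
      Matrix.mulVec_zero] at h2
    simpa using congrFun h2 0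
  obtain ⟨e, i, hei, he⟩ := exists_integral_fixed B (S := {τ | τ ∈ U ∧ chi p τ = 1}) hv
    fun τ hτ => by
      simp only [v]
      rw [Matrix.mulVec_mulVec, hT, ← Matrix.mulVec_mulVec]
      congr 1
      funext k
      fin_cases k <;> simp [h10, h00 τ hτ.1 hτ.2]
  exact ⟨U, hU, e, i, hei, fun τ hτ hχ n => by rw [B.rep_spec, he τ ⟨hτ, hχ⟩]⟩

/-- A primitive vector gives infinitely many points. -/
theorem injective_phi (B : TateBasis p W) {e : Fin 2 → ℤ_[p]} {i : Fin 2} (hei : e i = 1) :
    Function.Injective fun n => B.φ n e := by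
  have hkey : ∀ m n, m < n → B.φ m e ≠ B.φ n e := fun m n hmn he => by
    have h1 : B.φ n ((p : ℕ) ^ m • e) = 0 := by rw [map_nsmul, ← he, B.nsmul_phi]
    have h2 := (B.ker n _).1 h1 i
    rw [Pi.smul_apply, hei, nsmul_one, map_natCast, ZMod.natCast_eq_zero_iff,
      Nat.pow_dvd_pow_iff_le_right hp.out.one_lt] at h2
    omega
  intro m n he
  rcases lt_trichotomy m n with h | h | h
  · exact absurd he (hkey m n h)
  · exact h
  · exact absurd he.symm (hkey n m h)

/-- **At a pole infinitely many points of `p`-power order** are rational over the cyclotomic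
extension of some finite extension of `ℚ_p`. -/
theorem exists_infinite_of_pole (hj : padicValRat p (ratCurve W).j < 0) :
    ∃ K : IntermediateField ℚ_[p] (PadicAlgCl p), FiniteDimensional ℚ_[p] K ∧
      {P : Pts W | (∃ n, p ^ n • P = 0) ∧
        ∀ τ ∈ (K ⊔ cycInf p).fixingSubgroup, localGaloisToGlobal p τ • P = P}.Infinite := by
  obtain ⟨B⟩ := exists_tateBasis (p := p) W
  obtain ⟨U, hU, e, i, hei, he⟩ := exists_fixed_line hj B
  let H : ClosedSubgroup G := ⟨U, Subgroup.isClosed_of_isOpen U hU⟩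
  have hfix : (IntermediateField.fixedField U).fixingSubgroup = U :=
    InfiniteGalois.fixingSubgroup_fixedField H
  refine ⟨IntermediateField.fixedField U, (InfiniteGalois.isOpen_iff_finite _).1 (by
    rw [hfix]; exact hU), Set.infinite_of_injective_forall_mem (injective_phi B hei)
    fun n => ⟨⟨n, B.nsmul_phi n e⟩, fun τ hτ => ?_⟩⟩
  have h1 := IntermediateField.fixingSubgroup_antitone le_sup_left hτ
  rw [hfix] at h1
  exact he τ h1 ((mem_fix_cycInf_iff τ).1
    (IntermediateField.fixingSubgroup_antitone le_sup_right hτ)) n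

end FA.Imai
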