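import Fermat.Agent.Imai.Ordinary
import Fermat.Agent.Imai.Pole
import Fermat.Agent.Root.SummaryPotentialGoodReduction

/-!
# Torsion fixed by the kernel of the cyclotomic character

When `j` is integral at `p` the points of `p`-power order fixed by the kernel of `χ` in an open
subgroup are finitely many. A Frobenius in the subgroup leaves finitely many reductions, and the
kernel of reduction has no torsion of order prime to `p`, so the same holds for all torsion.
-/

set_option autoImplicit false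
set_option linter.unusedSectionVars false
set_option linter.style.haveILetI false

noncomputable section

open WeierstrassCurve FA.TateSen FA.Frob FA.EC FA.Local FA.RT.Tate FA.PotDR FA.LocIrr
open scoped WeierstrassCurve.Affine Classical

namespace FA.Imai

variable {p : ℕ} [hp : Fact p.Prime] {W : WeierstrassCurve ℤ} [(ratCurve W).IsElliptic]

local notation "G" => PadicAlgCl p ≃ₐ[ℚ_[p]] PadicAlgCl p
local notation "Qb" => AlgebraicClosure ℚ

/-- **Finitely many points of `p`-power order** are fixed by the kernel of `χ` in an open subgroup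
when `j` is integral. -/
theorem finite_fixed_pow (hj : 0 ≤ padicValRat p (ratCurve W).j) {U : Subgroup G}
    (hU : IsOpen (U : Set G)) :
    {P : Pts W | (∃ n, p ^ n • P = 0) ∧
      ∀ τ ∈ U, chi p τ = 1 → localGaloisToGlobal p τ • P = P}.Finite := by
  by_cases hs : PotSupersingular p W
  · exact finite_fixed_by_ker_chi hs hU
  obtain ⟨-, C, V, h, hord⟩ := (potOrdinary_or_supersingular hj).2 hs
  obtain ⟨B⟩ := exists_tateBasis (p := p) W
  refine (finite_fixed_of_moved B {τ | τ ∈ U ∧ chi p τ = 1} fun e i hi => ?_).subset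
    fun P hP => ⟨hP.1, fun τ hτ => hP.2 τ hτ.1 hτ.2⟩
  obtain ⟨n, τ, hτ, hχ, hne⟩ := exists_moved h hord B hU hi
  exact ⟨n, τ, ⟨hτ, hχ⟩, hne⟩

/-- The kernel of reduction has no torsion of order prime to `p`. -/
theorem eq_zero_of_e1_of_coprime {V : WeierstrassCurve Qb} [V.IsElliptic]
    (hI : IntCoeff (padicPlace p).valuation V.toAffine) {P : V.toAffine.Point}
    (hP : E1 (padicPlace p).valuation V.toAffine P) {m : ℕ} (hm : ¬ p ∣ m) (hmP : m • P = 0) :
    P = 0 := by
  induction m using Nat.recOnMul generalizing P with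
  | zero => exact absurd (dvd_zero p) hm
  | one => rwa [one_nsmul] at hmP
  | prime q hq =>
    refine FA.PotentialGood.eq_zero_of_e1_prime_pow hI hq ?_ hP (n := 1) (by rwa [pow_one])
    have h1 := valuation_intCast_of_liesOverPrime hp.out (FA.GalCoh.liesOverPrime_padicPlace p)
      (n := (q : ℤ)) (fun h => hm (Int.natCast_dvd_natCast.1 h))
    rwa [Int.cast_natCast] at h1
  | mul a b iha ihb =>
    have hk : ∀ k : ℕ, E1 (padicPlace p).valuation V.toAffine (k • P) := fun k => by
      induction k with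
      | zero => rw [zero_nsmul]; exact e1_zero
      | succ k ihk => rw [succ_nsmul]; exact e1_add hI ihk hP
    refine ihb hP (fun h => hm (dvd_mul_of_dvd_right h a)) ?_
    exact iha (hk b) (fun h => hm (dvd_mul_of_dvd_left h b)) (by rwa [← mul_nsmul'])

/-- **Finitely many torsion points of any order** are fixed by the kernel of `χ` in an open
subgroup when `j` is integral. -/
theorem finite_fixed_torsion (hj : 0 ≤ padicValRat p (ratCurve W).j) {U : Subgroup G}
    (hU : IsOpen (U : Set G)) :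
    {P : Pts W | IsOfFinAddOrder P ∧
      ∀ τ ∈ U, chi p τ = 1 → localGaloisToGlobal p τ • P = P}.Finite := by
  obtain ⟨C, V, h⟩ := exists_isGoodEq (p := p) (W := W) hj
  haveI := h.isElliptic
  set S := {P : Pts W | IsOfFinAddOrder P ∧
    ∀ τ ∈ U, chi p τ = 1 → localGaloisToGlobal p τ • P = P}
  set T := {P : Pts W | (∃ n, p ^ n • P = 0) ∧
    ∀ τ ∈ U, chi p τ = 1 → localGaloisToGlobal p τ • P = P}
  have hT : T.Finite := finite_fixed_pow hj hU
  -- the kernel of reduction meets the torsion points in points of `p`-power order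
  obtain ⟨N, hN⟩ : ∃ N, ∀ Q ∈ T, p ^ N • Q = 0 := by
    choose! n hn using fun Q (hQ : Q ∈ T) => hQ.1
    refine ⟨hT.toFinset.sup n, fun Q hQ => ?_⟩
    rw [← Nat.sub_add_cancel (Finset.le_sup (f := n) (hT.mem_toFinset.2 hQ)), pow_add,
      mul_nsmul', hn Q hQ, nsmul_zero]
  have hker : ∀ D ∈ S, red h D = 0 → D ∈ T := fun D hD h0 => by
    refine ⟨⟨N, ?_⟩, hD.2⟩
    obtain ⟨a, m, hm, ham⟩ := Nat.exists_eq_pow_mul_and_not_dvd
      (addOrderOf_pos_iff.2 hD.1).ne' p hp.out.ne_one
    have h1 : m • D ∈ T := ⟨⟨a, by rw [← mul_nsmul', ← ham, addOrderOf_nsmul_eq_zero]⟩,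
      fun τ hτ hχ => by rw [FA.RT.Tate.gal_smul_nsmul, hD.2 τ hτ hχ]⟩
    have h2 : m • (vcEquiv C h.eq.symm).symm (p ^ N • D) = 0 := by
      rw [← map_nsmul, smul_comm, hN _ h1, map_zero]
    refine (vcEquiv C h.eq.symm).symm.injective ?_
    rw [map_zero]
    refine eq_zero_of_e1_of_coprime h.int ?_ hm h2
    rw [← red_eq_zero_iff h, map_nsmul, h0, nsmul_zero]
  -- a Frobenius leaves finitely many reductions
  obtain ⟨σ, ⟨hσU, hσC⟩, hσ1, a, ha, hσ⟩ := exists_frobenius_mem (p := p)
    (U := U ⊓ fixGal p (coeffSet C)) (hU.inter (isOpen_fixGal (by simp)))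
  have himage : (red h '' S).Finite := (finite_frobFixed h ha).subset (by
    rintro _ ⟨P, hP, rfl⟩
    exact red_mem_frobFixed h hσC hσ (by rw [hP.2 σ hσU hσ1]))
  choose! f hfS hf using fun R (hR : R ∈ red h '' S) => hR
  refine (himage.biUnion fun R _ => hT.image fun D => f R + D).subset fun P hP => ?_
  have hR : red h P ∈ red h '' S := ⟨P, hP, rfl⟩
  refine Set.mem_biUnion hR ⟨P - f (red h P), hker _ ⟨?_, fun τ hτ hχ => ?_⟩ ?_,
    add_sub_cancel _ _⟩
  · rw [sub_eq_add_neg]
    exact hP.1.add (hfS _ hR).1.neg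
  · rw [gal_smul_sub, hP.2 τ hτ hχ, (hfS _ hR).2 τ hτ hχ]
  · rw [map_sub, hf _ hR, sub_self]

/-- **Imai's theorem**: `j` integral at `p` gives finitely many torsion points over
`K (μ_{p^∞})` for every finite extension `K` of `ℚ_p`. -/
theorem finite_torsion_cyclotomic (hj : 0 ≤ padicValRat p (ratCurve W).j)
    (K : IntermediateField ℚ_[p] (PadicAlgCl p)) [FiniteDimensional ℚ_[p] K] :
    {P : Pts W | IsOfFinAddOrder P ∧
      ∀ τ ∈ (K ⊔ cycInf p).fixingSubgroup, localGaloisToGlobal p τ • P = P}.Finite :=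
  (finite_fixed_torsion hj (U := K.fixingSubgroup) K.fixingSubgroup_isOpen).subset
    fun _ hP => ⟨hP.1, fun τ hτ hχ => hP.2 τ (mem_fix_sup_cycInf hτ hχ)⟩

/-- **The criterion**: finiteness over every `K (μ_{p^∞})` is the integrality of `j`. -/
theorem finite_torsion_cyclotomic_iff :
    0 ≤ padicValRat p (ratCurve W).j ↔
      ∀ K : IntermediateField ℚ_[p] (PadicAlgCl p), FiniteDimensional ℚ_[p] K →
        {P : Pts W | IsOfFinAddOrder P ∧
          ∀ τ ∈ (K ⊔ cycInf p).fixingSubgroup, localGaloisToGlobal p τ • P = P}.Finite := by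
  refine ⟨fun hj K _ => finite_torsion_cyclotomic hj K, fun h => ?_⟩
  by_contra hj
  obtain ⟨K, hK, hinf⟩ := exists_infinite_of_pole (p := p) (W := W) (not_le.1 hj)
  exact hinf ((h K hK).subset fun P hP => ⟨isOfFinAddOrder_iff_nsmul_eq_zero.2
    ⟨p ^ hP.1.choose, pow_pos hp.out.pos _, hP.1.choose_spec⟩, hP.2⟩)

end FA.Imai
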