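import Fermat.Agent.Imai.Residue
import Fermat.Agent.LocalIrreducible.Procyclic
import Fermat.Agent.KummerDeRham.Line

/-!
# Every line is moved at potentially ordinary reduction

Were a line fixed by the kernel of `χ` in an open subgroup, a Frobenius in it would fix the
reduction of all points of `p`-power order, so all these reductions would be zero.
-/

set_option autoImplicit false
set_option linter.unusedSectionVars false
set_option linter.style.haveILetI false

noncomputable section

open Matrix WeierstrassCurve FA.TateSen FA.Frob FA.EC FA.Local FA.RT.Tate FA.PotDR FA.EDR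
open scoped WeierstrassCurve.Affine Classical Topology

namespace FA.Imai

variable {p : ℕ} [hp : Fact p.Prime] {W : WeierstrassCurve ℤ} [(ratCurve W).IsElliptic]

local notation "G" => PadicAlgCl p ≃ₐ[ℚ_[p]] PadicAlgCl p
local notation "Qb" => AlgebraicClosure ℚ
local notation "Ω" => PadicAlgCl p

/-- A compatible system under multiplication by `p` with finitely many values is zero. -/
theorem eq_zero_of_chain {A : Type*} [AddCommMonoid A] {r : ℕ → A} (hfin : (Set.range r).Finite)
    (h0 : r 0 = 0) (hr : ∀ n, p • r (n + 1) = r n) (n : ℕ) : r n = 0 := by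
  have hdown : ∀ k m, p ^ k • r (m + k) = r m := fun k => by
    induction k with
    | zero => intro m; rw [pow_zero, one_nsmul, add_zero]
    | succ k ih => intro m; rw [pow_succ, mul_nsmul', ← add_assoc, hr, ih]
  obtain ⟨a, b, hab, heq⟩ : ∃ a b, a < b ∧ r (n + a) = r (n + b) := by
    have : Finite (Set.range r) := hfin.to_subtype
    obtain ⟨a, b, hne, he⟩ := Finite.exists_ne_map_eq_of_infinite
      fun m : ℕ => (⟨r (n + m), n + m, rfl⟩ : Set.range r)
    rcases hne.lt_or_gt with hlt | hlt
    · exact ⟨a, b, hlt, congrArg Subtype.val he⟩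
    · exact ⟨b, a, hlt, (congrArg Subtype.val he).symm⟩
  obtain ⟨d, rfl⟩ := Nat.exists_eq_add_of_lt hab
  have hper : r n = p ^ (d + 1) • r n := by
    conv_lhs => rw [← hdown (a + d + 1) n, ← heq, add_assoc, add_comm a (d + 1), pow_add,
      mul_nsmul', hdown]
  have hiter : ∀ j : ℕ, r n = p ^ ((d + 1) * j) • r n := fun j => by
    induction j with
    | zero => simp
    | succ j ih => rw [mul_add_one, pow_add, mul_nsmul', ← hper, ← ih]
  rw [hiter n, show (d + 1) * n = d * n + n by ring, pow_add, mul_nsmul',
    show p ^ n • r n = r 0 by simpa using hdown n 0, h0, nsmul_zero]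

/-- **A Frobenius in an open subgroup**, fixing the roots of unity of `p`-power order. -/
theorem exists_frobenius_mem {U : Subgroup G} (hU : IsOpen (U : Set G)) :
    ∃ σ ∈ U, chi p σ = 1 ∧ ∃ a : ℕ, 0 < a ∧
      ∀ (N : ℕ) (z : Ω), ¬ p ∣ N → z ^ N = 1 → σ z = z ^ p ^ a := by
  obtain ⟨φ, hφ1, hφ⟩ := FA.PadicChar.exists_frobenius (p := p)
  have : Finite (G ⧸ U) := Subgroup.quotient_finite_of_isOpen U hU
  have : U.FiniteIndex := Subgroup.finiteIndex_of_finite_quotient
  obtain ⟨a, ha, -, hmem⟩ := Subgroup.exists_pow_mem_of_index_ne_zero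
    (Subgroup.FiniteIndex.index_ne_zero (H := U)) φ
  exact ⟨φ ^ a, hmem, by rw [map_pow, hφ1, one_pow], a, ha,
    fun N z hN hz => FA.PadicChar.pow_frobenius_apply hφ hN hz a⟩

/-- **Every line is moved**: at potentially ordinary reduction the kernel of `χ` in an open
subgroup fixes no line. -/
theorem exists_moved {C : VariableChange Qb} {V : WeierstrassCurve Qb} (h : IsGoodEq p W C V)
    (hord : ∃ P : V.toAffine.Point, p • P = 0 ∧ ¬ E1 (padicPlace p).valuation V.toAffine P)
    (B : TateBasis p W) {U : Subgroup G} (hU : IsOpen (U : Set G)) {e : Fin 2 → ℤ_[p]} {i : Fin 2}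
    (hi : IsUnit (e i)) :
    ∃ n, ∃ τ ∈ U, chi p τ = 1 ∧ localGaloisToGlobal p τ • B.φ (n + 1) e ≠ B.φ (n + 1) e := by
  haveI := h.isElliptic
  by_contra hc
  push Not at hc
  obtain ⟨σ, ⟨hσU, hσC⟩, hσ1, a, ha, hσ⟩ := exists_frobenius_mem (p := p)
    (U := U ⊓ fixGal p (coeffSet C)) (hU.inter (isOpen_fixGal (by simp)))
  set s := localGaloisToGlobal p σ
  have hfin := finite_frobFixed h ha
  have hfix : ∀ n, s • B.φ n e = B.φ n e := fun n => by
    cases n with
    | zero => rw [B.phi_zero_level, gal_smul_zero]
    | succ n => exact hc n σ hσU hσ1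
  have hzero : ∀ w, (∀ n, red h (s • B.φ n w) = red h (B.φ n w)) →
      ∀ n, red h (B.φ n w) = 0 := fun w hw n =>
    eq_zero_of_chain (p := p) (r := fun n => red h (B.φ n w))
      (hfin.subset (by rintro _ ⟨m, rfl⟩; exact red_mem_frobFixed h hσC hσ (hw m)))
      (by rw [B.phi_zero_level, map_zero]) (fun m => by rw [← map_nsmul, B.compat]) n
  have he0 := hzero e fun n => by rw [hfix]
  -- the Frobenius is unipotent with invariant vector `e`
  set R := B.rep s
  have hRe : R *ᵥ e = e := funext fun k => PadicInt.ext_of_toZModPow.1 fun n =>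
    B.phi_eq_iff.1 (by rw [← B.rep_spec, hfix]) k
  have hdet : R.det = 1 := by
    rw [B.det_rep, FA.AbelianGeometric.cycP_loc, hσ1, Units.val_one]
  obtain ⟨P, hP, hPE⟩ := hord
  refine hPE ?_
  obtain ⟨v, hv⟩ := B.surj 1 (vcEquiv C h.eq.symm P) (by
    rw [pow_one, ← map_nsmul, hP, map_zero])
  have hred := hzero v (fun n => ?_) 1
  · rw [hv, red_eq_zero_iff, AddEquiv.symm_apply_apply] at hred
    exact hred
  · set u := R *ᵥ v - v
    have hu : det2 e u = 0 := by
      have h2 := det2_mulVec R e v
      rw [hRe, hdet, one_mul] at h2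
      simp only [det2, u, Pi.sub_apply] at h2 ⊢
      linear_combination h2
    obtain ⟨b, hb⟩ := hi.exists_left_inv
    have hue : u = (b * u i) • e := funext fun j => by
      rw [Pi.smul_apply, smul_eq_mul]
      have h3 : e i * u j = e j * u i := by
        simp only [det2] at hu
        fin_cases i <;> fin_cases j <;> simp <;>
          first | linear_combination hu | linear_combination -hu
      linear_combination b * h3 - u j * hb
    have hmem : B.φ n u ∈ (red h).ker := by
      rw [hue]
      exact FA.KDR.phi_smul_mem n _ (he0 n)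
    rw [AddMonoidHom.mem_ker, map_sub (B.φ n), map_sub, sub_eq_zero] at hmem
    rw [B.rep_spec]
    exact hmem

end FA.Imai
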