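import Fermat.Agent.PotentialDeRham.Line

/-!
# Reduction along a good equation and a Frobenius

An automorphism of `ℚ̄_p` which fixes the change of variables and raises the roots of unity of
order prime to `p` to the power `p ^ a` fixes the reduction of a point only if the coordinates of
this reduction lie in the field with `p ^ a` elements.
-/

set_option autoImplicit false
set_option linter.unusedSectionVars false
set_option linter.style.haveILetI false

noncomputable section

open WeierstrassCurve FA.Frob FA.EC FA.Local FA.RT.Tate FA.PotDR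
open scoped WeierstrassCurve.Affine Classical

namespace FA.Imai

variable {p : ℕ} [hp : Fact p.Prime] {W : WeierstrassCurve ℤ} [(ratCurve W).IsElliptic]

local notation "G" => PadicAlgCl p ≃ₐ[ℚ_[p]] PadicAlgCl p
local notation "Qb" => AlgebraicClosure ℚ
local notation "Ω" => PadicAlgCl p

variable {C : VariableChange Qb} {V : WeierstrassCurve Qb}

/-- The points of the reduced good equation. -/
abbrev RedPts (h : IsGoodEq p W C V) : Type :=
  (redCurve (padicPlace p) V.toAffine h.int).toAffine.Point

/-- Reduction of the points along a good equation. -/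
def red (h : IsGoodEq p W C V) : Pts W →+ RedPts h :=
  haveI := h.isElliptic
  haveI := redCurve_isElliptic h.int h.disc
  (redHom h.int h.disc).comp (vcEquiv C h.eq.symm).symm.toAddMonoidHom

theorem red_apply [V.IsElliptic] (h : IsGoodEq p W C V) (P : Pts W)
    [(redCurve (padicPlace p) V.toAffine h.int).IsElliptic] :
    red h P = redFun h.int ((vcEquiv C h.eq.symm).symm P) := rfl

theorem red_eq_zero_iff [V.IsElliptic] (h : IsGoodEq p W C V) {P : Pts W} :
    red h P = 0 ↔ E1 (padicPlace p).valuation V.toAffine ((vcEquiv C h.eq.symm).symm P) :=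
  haveI := redCurve_isElliptic h.int h.disc
  redFun_eq_zero_iff h.int

/-- The reduced points with both coordinates in the field with `p ^ a` elements. -/
def frobFixed (h : IsGoodEq p W C V) (a : ℕ) : Set (RedPts h) :=
  {R | ∀ x y hxy, R = .some x y hxy → x ^ p ^ a = x ∧ y ^ p ^ a = y}

theorem finite_frobFixed (h : IsGoodEq p W C V) {a : ℕ} (ha : 0 < a) :
    (frobFixed h a).Finite := by
  set K := Frob.Res (padicPlace p)
  have hroots : {x : K | x ^ p ^ a = x}.Finite :=
    (Polynomial.finite_setOf_isRoot (FiniteField.X_pow_card_sub_X_ne_zero K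
      (Nat.one_lt_pow ha.ne' hp.out.one_lt))).subset fun x (hx : x ^ p ^ a = x) => by
      simp [Polynomial.IsRoot, hx]
  let f : RedPts h → Option (K × K) := fun R => match R with
    | .zero => none
    | .some x y _ => some (x, y)
  refine Set.Finite.of_finite_image (f := f)
    ((((hroots.prod hroots).image some).insert none).subset ?_) ?_
  · rintro _ ⟨R, hR, rfl⟩
    rcases R with _ | ⟨x, y, hxy⟩
    · exact Or.inl rfl
    · exact Or.inr ⟨(x, y), hR x y hxy rfl, rfl⟩
  · rintro (_ | ⟨x, y, hxy⟩) - (_ | ⟨x', y', hxy'⟩) - he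
    · rfl
    · simp [f] at he
    · simp [f] at he
    · simp only [f, Option.some.injEq, Prod.mk.injEq] at he
      simp [he.1, he.2]

/-- **A Frobenius fixes few reductions.** -/
theorem red_mem_frobFixed (h : IsGoodEq p W C V) {σ : G} (hσC : σ ∈ fixGal p (coeffSet C))
    {a : ℕ} (hσ : ∀ (N : ℕ) (z : Ω), ¬ p ∣ N → z ^ N = 1 → σ z = z ^ p ^ a) {P : Pts W}
    (hP : red h (localGaloisToGlobal p σ • P) = red h P) : red h P ∈ frobFixed h a := by
  haveI := h.isElliptic
  haveI := redCurve_isElliptic h.int h.disc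
  intro x y hxy hR
  set s := localGaloisToGlobal p σ
  set eV := vcEquiv C h.eq.symm
  obtain ⟨Q, rfl⟩ := eV.surjective P
  rw [red_apply, red_apply, eV.symm_apply_apply] at hP
  rw [red_apply, eV.symm_apply_apply] at hR
  rcases Q with _ | ⟨x₀, y₀, h₀⟩
  · exact absurd hR.symm (Affine.Point.some_ne_zero _)
  by_cases hx₀ : x₀ ∈ padicPlace p
  swap
  · rw [show redFun h.int (Affine.Point.some x₀ y₀ h₀) = 0 from dif_neg hx₀] at hR
    exact absurd hR.symm (Affine.Point.some_ne_zero _)
  have hy₀ := y_mem h.int h₀.1 hx₀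
  obtain ⟨k₀, hk₀⟩ := redFun_of_mem h.int h₀ hx₀
  rw [hk₀, Affine.Point.some.injEq] at hR
  rw [hk₀, vcEquiv_some] at hP
  obtain ⟨h', he⟩ := smul_some (σ := s) (ratCurve W)
    (Affine.equation_iff_nonsingular.mp ((equation_vc C h.eq.symm x₀ y₀).mpr h₀.1))
  rw [he] at hP
  rcases hR' : eV.symm (Affine.Point.some _ _ h') with _ | ⟨x₁, y₁, h₁⟩
  · rw [hR'] at hP
    exact absurd hP.symm (Affine.Point.some_ne_zero _)
  rw [hR'] at hP
  have h2 := congrArg eV hR'
  rw [AddEquiv.apply_symm_apply, vcEquiv_some, Affine.Point.some.injEq] at h2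
  have hu : s (C.u : Qb) = C.u := apply_of_mem_fixGal hσC (by simp)
  have hr : s C.r = C.r := apply_of_mem_fixGal hσC (by simp)
  have hs : s C.s = C.s := apply_of_mem_fixGal hσC (by simp)
  have ht : s C.t = C.t := apply_of_mem_fixGal hσC (by simp)
  obtain ⟨hx, hy⟩ := h2
  simp only [vcX, map_add, map_mul, map_pow, hu, hr] at hx
  have ex : s x₀ = x₁ := mul_left_cancel₀ (pow_ne_zero 2 C.u.ne_zero) (add_right_cancel hx)
  simp only [vcY, map_add, map_mul, map_pow, hu, hs, ht, ← ex] at hy
  have ey : s y₀ = y₁ :=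
    mul_left_cancel₀ (pow_ne_zero 3 C.u.ne_zero) (add_right_cancel (add_right_cancel hy))
  have hx₁ : x₁ ∈ padicPlace p := ex ▸ (FA.OrdDR.loc_mem_padicPlace_iff σ x₀).2 hx₀
  obtain ⟨k₁, hk₁⟩ := redFun_of_mem h.int h₁ hx₁
  rw [hk₁, Affine.Point.some.injEq, ← ex, ← ey, FA.OrdDR.resOf_loc hσ hx₀,
    FA.OrdDR.resOf_loc hσ hy₀, hR.1, hR.2] at hP
  exact hP

end FA.Imai
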