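import Fermat.Agent.EveryDeRham.Poles

/-!
# The sign at a place of multiplicative reduction for `p = 2`

A decomposition element fixes or negates every point modulo the component of the identity. So on
the `2`-adic Tate module the quotient by the line of that component has square one on the whole
decomposition group.
-/

set_option autoImplicit false
set_option linter.unusedSectionVars false
set_option linter.style.haveILetI false

noncomputable section

open Matrix WeierstrassCurve FA.Local FA.Frob FA.EC FA.LocalDef FA.RT.Tate FA.CurveDR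
open scoped Pointwise WeierstrassCurve.Affine Classical

namespace FA.Imai

local notation "Qb" => AlgebraicClosure ℚ
local notation "GQ" => AlgebraicClosure ℚ ≃ₐ[ℚ] AlgebraicClosure ℚ

/-- A decomposition element fixes or negates a point modulo the component of the identity. -/
theorem node_smul_sign {W : WeierstrassCurve ℤ} [(ratCurve W).IsElliptic] {q : ℕ}
    {A : ValuationSubring Qb} {r : Qb} (N : NodeData W q A r) {σ : GQ}
    (hσ : σ ∈ A.decompositionSubgroup ℚ) (P : Pts W) :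
    σ • P - P ∈ N.e0Sub ∨ σ • P + P ∈ N.e0Sub := by
  obtain ⟨P, rfl⟩ := (originEquiv ((ratCurve W)⁄Qb) r).surjective P
  rcases P with _ | ⟨x, y, h⟩
  · left
    rw [← Affine.Point.zero_def, map_zero, gal_smul_zero, sub_zero]
    exact zero_mem _
  set x' := σ x + (σ r - r)
  obtain ⟨y', h', e⟩ := N.smul_origin (σ := σ) h
  rw [e, ← map_sub, ← map_add, N.mem_e0Sub, N.mem_e0Sub]
  by_cases h1 : 1 ≤ A.valuation x
  · left
    have := N.smul_mem_e0Sub hσ ((N.mem_e0Sub (P := .some x y h)).2 h1)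
    rw [e, N.mem_e0Sub] at this
    exact N.node.e0_sub this h1
  by_cases h2 : A.valuation x ≤ A.valuation (toOrigin ((ratCurve W)⁄Qb) r).toAffine.a₄
  · left
    have h3 : A.valuation x' ≤ A.valuation (toOrigin ((ratCurve W)⁄Qb) r).toAffine.a₄ :=
      A.valuation.map_add_le (by rwa [decomp_map_eq hσ]) (N.delta_le hσ)
    have h4 := N.node.e0_sub (N.node.e0_add_T_of_le h' h3) (N.node.e0_add_T_of_le h h2)
    rwa [add_sub_add_right_eq_sub] at h4
  rw [not_le] at h1 h2
  have hbr := N.node.br_self h h2 h1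
  have hx' : A.valuation x' = A.valuation x := by
    rw [A.valuation.map_add_eq_of_lt_left (by
      rw [decomp_map_eq hσ]; exact (N.delta_le hσ).trans_lt h2), decomp_map_eq hσ]
  have hbrs := N.node.br_self h' (hx' ▸ h2) (hx' ▸ h1)
  rw [hx'] at hbrs
  have hs := hbr
  have hs' := hbrs
  rw [br_some] at hs hs'
  rcases Node.root_cases hs.2.2.2.2 hs'.2.2.2.2 with h3 | h3
  · exact Or.inl (N.node.sub_e0_of_br (Node.br_congr hbrs hs.2.2.2.2 h3) hbr)
  · exact Or.inr ((N.node.add_opp hbr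
      (Node.br_congr hbrs (by rw [Node.qb_other]; exact hs.2.2.2.2) h3)).1 rfl |>
      fun h4 => by rwa [add_comm] at h4)

variable [Fact (Nat.Prime 2)] {W : WeierstrassCurve ℤ} [(ratCurve W).IsElliptic]
  {q : ℕ} {A : ValuationSubring Qb}

/-- **The triangular form with a sign.** -/
theorem exists_triangular_two_sign (B : TateBasis 2 W) (hm : MultAt W q A) :
    ∃ C : Matrix (Fin 2) (Fin 2) ℤ_[2], IsUnit C.det ∧ ∀ σ ∈ A.decompositionSubgroup ℚ,
      (C⁻¹ * (B.rep σ * C)) 1 0 = 0 ∧ (C⁻¹ * (B.rep σ * C)) 1 1 ^ 2 = 1 := by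
  obtain ⟨r, N⟩ := exists_nodeData hm
  obtain ⟨v₀, ⟨i, hi⟩, hvE, hline⟩ := FA.EDR.exists_line_vec_two N B
  obtain ⟨C, hC, hC0⟩ :
      ∃ C : Matrix (Fin 2) (Fin 2) ℤ_[2], IsUnit C.det ∧ C *ᵥ Pi.single 0 1 = v₀ := by
    fin_cases i
    · refine ⟨!![v₀ 0, 0; v₀ 1, 1], by simpa [det_fin_two_of] using hi, ?_⟩
      funext j; fin_cases j <;> simp
    · refine ⟨!![v₀ 0, 1; v₀ 1, 0], by simpa [det_fin_two_of] using hi, ?_⟩
      funext j; fin_cases j <;> simp
  have hcoord : ∀ n w, B.φ n w ∈ N.e0Sub → PadicInt.toZModPow n ((C⁻¹ *ᵥ w) 1) = 0 := by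
    intro n w hw
    obtain ⟨k, hk⟩ := hline n w hw
    have h := B.phi_eq_iff.mp (B.phi_mulVec_congr C⁻¹ hk) 1
    rw [h, mulVec_smul, ← hC0, mulVec_mulVec, Matrix.nonsing_inv_mul _ hC, one_mulVec]
    simp
  refine ⟨C, hC, fun σ hσ => ?_⟩
  set M := B.rep σ
  set T := C⁻¹ * (M * C) with hT
  have hTj : ∀ j, C⁻¹ *ᵥ (M *ᵥ (C *ᵥ Pi.single j 1)) = T.col j := fun j => by
    rw [mulVec_mulVec, mulVec_mulVec, mul_assoc, ← hT, mulVec_single_one]
  refine ⟨PadicInt.ext_of_toZModPow.mp fun n => ?_, PadicInt.ext_of_toZModPow.mp fun n => ?_⟩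
  · have h := hcoord n (M *ᵥ v₀) (by rw [← B.rep_spec]; exact N.smul_mem_e0Sub hσ (hvE n))
    rw [← hC0, hTj] at h
    rw [map_zero]
    exact h
  · set w := C *ᵥ Pi.single 1 1 with hw
    have hM1 : (C⁻¹ *ᵥ w) 1 = 1 := by
      rw [hw, mulVec_mulVec, Matrix.nonsing_inv_mul _ hC, one_mulVec, Pi.single_eq_same]
    rw [map_pow, map_one]
    rcases node_smul_sign N hσ (B.φ n w) with h | h
    · rw [B.rep_spec, ← map_sub] at h
      have h' := hcoord n _ h
      rw [mulVec_sub, Pi.sub_apply, hM1, hw, hTj, map_sub, map_one, sub_eq_zero] at h'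
      rw [show T 1 1 = T.col 1 1 from rfl, h', one_pow]
    · rw [B.rep_spec, ← map_add] at h
      have h' := hcoord n _ h
      rw [mulVec_add, Pi.add_apply, hM1, hw, hTj, map_add, map_one,
        add_eq_zero_iff_eq_neg] at h'
      rw [show T 1 1 = T.col 1 1 from rfl, h', neg_one_sq]

/-- The shape at `2` with square one on the whole Galois group of `ℚ_2`. -/
theorem exists_triangular_local_two_sq (B : TateBasis 2 W) (hm : MultAt W 2 (padicPlace 2)) :
    ∃ (C : (Matrix (Fin 2) (Fin 2) ℚ_[2])ˣ)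
      (T : (PadicAlgCl 2 ≃ₐ[ℚ_[2]] PadicAlgCl 2) → Matrix (Fin 2) (Fin 2) ℚ_[2]),
      (∀ τ, curveAtP B τ * (C : Matrix (Fin 2) (Fin 2) ℚ_[2]) =
        (C : Matrix (Fin 2) (Fin 2) ℚ_[2]) * T τ) ∧ (∀ τ, T τ 1 0 = 0) ∧
        ∀ τ, T τ 1 1 ^ 2 = 1 := by
  obtain ⟨C₀, hC₀, h⟩ := exists_triangular_two_sign B hm
  obtain ⟨C, hC⟩ : IsUnit (C₀.map (PadicInt.Coe.ringHom (p := 2))) :=
    ((Matrix.isUnit_iff_isUnit_det _).2 hC₀).map (PadicInt.Coe.ringHom (p := 2)).mapMatrix
  refine ⟨C, fun τ => (C₀⁻¹ * (B.rep (localGaloisToGlobal 2 τ) * C₀)).map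
    (PadicInt.Coe.ringHom (p := 2)), fun τ => ?_, fun τ => ?_, fun τ => ?_⟩
  · rw [curveAtP, hC, ← Matrix.map_mul, ← Matrix.map_mul, ← mul_assoc C₀,
      Matrix.mul_nonsing_inv _ hC₀, one_mul]
  · beta_reduce
    rw [Matrix.map_apply, (h _ (localGaloisToGlobal_mem_decompositionSubgroup 2 τ)).1, map_zero]
  · beta_reduce
    rw [Matrix.map_apply, ← map_pow,
      (h _ (localGaloisToGlobal_mem_decompositionSubgroup 2 τ)).2, map_one]

end FA.Imai
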